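/-
S15 / TOP: the frozen statement S15 from
* `AbsDescent` (the abstract Eisenstein descent, `Abs/Defs.lean`),
* `Geom` : the raw data for `J = J₀(p)`, cut into one contract per geometric module
  (`R0, RCh, RJ1, RFin, RAtL, RAtP, RCusp` = the fields of `Raw`, VERBATIM, grouped by owner;
  `GeomPoint` = the rational point `y` attached to `(W, Q)` and its two reductions),
* `Lne.lne` (`ℓ' ≠` the descent prime).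
-/
import Fermat.Statements.S15
import Fermat.Agent.S15.Abs.Defs
import Fermat.Agent.S15.Lne.Main
import Fermat.Agent.Lib.Frobenius
import Fermat.Prelude.Def_ModularCurve_ArithmeticGalois

set_option autoImplicit false

namespace Fermat.Agent.S15

open WeierstrassCurve WeierstrassCurve.Affine ModularCurve

/-- (R0) open stabilisers, divisibility, finiteness (S15-DIVFIN) -/
structure R0 (J : Type) [AddCommGroup J] [DistribMulAction GQ J] (ℓ : ℕ) : Prop where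
  smooth : ∀ x : J, ∃ L : IntermediateField ℚ Qb, FiniteDimensional ℚ L ∧
    ∀ σ : GQ, (∀ a ∈ L, σ a = a) → σ • x = x
  div : ∀ x : J, ∃ z : J, ℓ • z = x
  fin : {x : J | ℓ • x = 0}.Finite

/-- (CH), (NE) (helper25: S15-CH, NE-alg) -/
structure RCh (J : Type) [AddCommGroup J] [DistribMulAction GQ J] (p ℓ : ℕ) : Prop where
  ch : ∀ (r : ℕ) (σ : GQ) (k : ℕ), IsCyc ℓ r σ k → ∀ (τ : GQ) (x : J), (ℓ ^ r) • x = 0 →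
    τ • (σ • x + k • σ⁻¹ • x) = σ • τ • x + k • σ⁻¹ • τ • x
  ne : ∀ q : ℕ, q.Prime → q ≠ p → q ≠ ℓ → ∀ A : ValuationSubring Qb, A.LiesOverPrime q →
    ∀ φ : GQ, A.IsFrobeniusAt φ q →
      {x : J | x ∈ torInf J ℓ ∧ φ • x + q • φ⁻¹ • x = (1 + q) • x}.Finite

/-- (J1) without (FIN) (helper25) -/
structure RJ1 (J : Type) [AddCommGroup J] [DistribMulAction GQ J] (p ℓ : ℕ)
    (J1 : ValuationSubring Qb → AddSubgroup J) : Prop where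
  J1_decomp : ∀ q : ℕ, q.Prime → q ≠ p → ∀ A : ValuationSubring Qb, A.LiesOverPrime q →
    ∀ σ ∈ A.decompositionSubgroup ℚ, ∀ z ∈ J1 A, σ • z ∈ J1 A
  J1_inert : ∀ q : ℕ, q.Prime → q ≠ p → ∀ A : ValuationSubring Qb, A.LiesOverPrime q →
    ∀ σ ∈ A.inertiaSubgroupIn ℚ, ∀ z : J, σ • z - z ∈ J1 A
  J1_tor : ∀ q : ℕ, q.Prime → q ≠ p → q ≠ ℓ → ∀ A : ValuationSubring Qb, A.LiesOverPrime q →
    ∀ z ∈ J1 A, z ∈ torInf J ℓ → z = 0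

/-- (FIN) (helper77: S15-RED) -/
structure RFin (J : Type) [AddCommGroup J] [DistribMulAction GQ J] (p ℓ : ℕ)
    (J1 : ValuationSubring Qb → AddSubgroup J) : Prop where
  J1_fin : ∀ q : ℕ, q.Prime → q ≠ p → q ≠ ℓ → ∀ A : ValuationSubring Qb, A.LiesOverPrime q →
    ∃ m : ℕ, 0 < m ∧ ∀ w : J, (∀ σ ∈ A.decompositionSubgroup ℚ, σ • w = w) → m • w ∈ J1 A

/-- (AT ℓ) (helper25: S15-ATL) -/
structure RAtL (J : Type) [AddCommGroup J] [DistribMulAction GQ J] (ℓ : ℕ)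
    (J1 : ValuationSubring Qb → AddSubgroup J)
    (Aℓ : ValuationSubring Qb) (Tℓ : J → J) : Prop where
  Tℓ_mem : ∀ r x, (ℓ ^ r) • x = 0 → (ℓ ^ r) • Tℓ x = 0
  Tℓ_add : ∀ x ∈ torInf J ℓ, ∀ y ∈ torInf J ℓ, Tℓ (x + y) = Tℓ x + Tℓ y
  Tℓ_gal : ∀ (σ : GQ), ∀ x ∈ torInf J ℓ, Tℓ (σ • x) = σ • Tℓ x
  Tℓ_J1 : ∀ x ∈ torInf J ℓ, x ∈ J1 Aℓ → Tℓ x ∈ J1 Aℓ
  t_J1 : ∀ (r : ℕ) (σ : GQ) (k : ℕ), IsCyc ℓ r σ k → ∀ x : J, (ℓ ^ r) • x = 0 → x ∈ J1 Aℓ →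
    σ • x + k • σ⁻¹ • x ∈ J1 Aℓ
  es_ℓ : ∀ φ : GQ, Aℓ.IsFrobeniusAt φ ℓ → ∀ x ∈ torInf J ℓ,
    φ • φ • x - Tℓ (φ • x) + ℓ • x ∈ J1 Aℓ
  ne_ℓ : {x : J | x ∈ torInf J ℓ ∧ Tℓ x = (1 + ℓ) • x}.Finite
  ne_ℓ' : {x : J | x ∈ torInf J ℓ ∧ Tℓ x + (1 + ℓ) • x = 0}.Finite

/-- (AT p) (helper8: S15-ATP) -/
structure RAtP (J : Type) [AddCommGroup J] [DistribMulAction GQ J] (p ℓ : ℕ)
    (Ap : ValuationSubring Qb) (W : AddSubgroup J) : Prop where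
  W_le : W ≤ torInf J ℓ
  W_decomp : ∀ σ ∈ Ap.decompositionSubgroup ℚ, ∀ x ∈ W, σ • x ∈ W
  W_inert : ∀ σ ∈ Ap.inertiaSubgroupIn ℚ, ∀ z : J, σ • z - z ∈ torInf J ℓ → σ • z - z ∈ W
  W_fix : ∀ σ ∈ Ap.inertiaSubgroupIn ℚ, ∀ x ∈ W, σ • x = x
  W_frob : ∀ φ : GQ, Ap.IsFrobeniusAt φ p → ∀ x ∈ W, φ • φ • x = (p ^ 2) • x

/-- the cuspidal class (helper2: S15-CUSP) -/
structure RCusp (J : Type) [AddCommGroup J] [DistribMulAction GQ J] (ℓ : ℕ)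
    (J1 : ValuationSubring Qb → AddSubgroup J)
    (Aℓ : ValuationSubring Qb) (Tℓ : J → J) (c : J) : Prop where
  c_fix : ∀ σ : GQ, σ • c = c
  c_tor : c ∈ torInf J ℓ
  c_Tℓ : Tℓ c = (1 + ℓ) • c
  c_not_mem : c ∉ J1 Aℓ

/-- All the geometric data which do not depend on the elliptic curve:
`p` = the level, `lam` = the descent prime. -/
structure GeomBase (p lam : ℕ) where
  J1 : ValuationSubring Qb → AddSubgroup (JZero p)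
  Al : ValuationSubring Qb
  hAl : Al.LiesOverPrime lam
  Tl : JZero p → JZero p
  Ap : ValuationSubring Qb
  hAp : Ap.LiesOverPrime p
  W : AddSubgroup (JZero p)
  c : JZero p
  r0 : R0 (JZero p) lam
  rch : RCh (JZero p) p lam
  rj1 : RJ1 (JZero p) p lam J1
  rfin : RFin (JZero p) p lam J1
  ratl : RAtL (JZero p) lam J1 Al Tl
  ratp : RAtP (JZero p) p lam Ap W
  rcusp : RCusp (JZero p) lam J1 Al Tl c

/-- The contract of S15-MOD (+ CEN): the rational point `y = m ((x) - (0))` of `J₀(p)` attached to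
`(W, Q)`; `y` reduces to `0` at `A₀` (where `Q` misses the zero component), `y + c` reduces to `0` at
`A'` (where `Q` lies in the zero component), `c = m ((0) - (∞))`. -/
def GeomPoint {p lam : ℕ} (B : GeomBase p lam) : Prop :=
  ∀ (W : WeierstrassCurve ℤ), W.Δ ≠ 0 →
    ∀ Q : ((W.map (Int.castRingHom ℚ))⁄(AlgebraicClosure ℚ)).Point,
    (∀ σ : AlgebraicClosure ℚ ≃ₐ[ℚ] AlgebraicClosure ℚ, σ • Q = Q) → addOrderOf Q = p →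
    ∀ (q₀ : ℕ), (q₀ = 2 ∨ q₀ = 3) → q₀ ≠ lam → (q₀ : ℤ) ∣ W.Δ → ¬ (q₀ : ℤ) ∣ W.c₄ →
    ∀ A₀ : ValuationSubring (AlgebraicClosure ℚ), A₀.LiesOverPrime q₀ →
      ¬ W.InZeroComponentAt A₀ Q →
    ∀ (ℓ' : ℕ), ℓ'.Prime → 5 ≤ ℓ' → ℓ' ≠ p → ℓ' ≠ lam → (ℓ' : ℤ) ∣ W.Δ → ¬ (ℓ' : ℤ) ∣ W.c₄ →
    ∀ A' : ValuationSubring (AlgebraicClosure ℚ), A'.LiesOverPrime ℓ' →
      W.InZeroComponentAt A' Q →
    ∃ y : JZero p, (∀ σ : GQ, σ • y = y) ∧ y ∈ B.J1 A₀ ∧ y + B.c ∈ B.J1 A'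

/-- THE GEOMETRIC INPUT OF S15. -/
def Geom : Prop :=
  ∀ p : ℕ, p.Prime → p ∉ ({2, 3, 5, 7, 13} : Finset ℕ) →
    ∃ lam : ℕ, lam.Prime ∧ lam ≠ p ∧ lam ∣ p - 1 ∧ 2 * lam ≤ p - 1 ∧
      ∃ B : GeomBase p lam, GeomPoint B

/-- the raw data from the geometric contracts -/
def GeomBase.toRaw {p lam : ℕ} (B : GeomBase p lam) (hp : p.Prime) (hlam : lam.Prime)
    (hlamp : lam ≠ p) (hdvd : lam ∣ p - 1) (y : JZero p) (y_fix : ∀ σ : GQ, σ • y = y)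
    {q₀ : ℕ} (hq₀ : q₀.Prime) (hq₀p : q₀ ≠ p) (hq₀l : q₀ ≠ lam) (A₀ : ValuationSubring Qb)
    (hA₀ : A₀.LiesOverPrime q₀) (y_mem : y ∈ B.J1 A₀)
    {ℓ' : ℕ} (hℓ' : ℓ'.Prime) (hℓ'p : ℓ' ≠ p) (hℓ'l : ℓ' ≠ lam) (A' : ValuationSubring Qb)
    (hA' : A'.LiesOverPrime ℓ') (yc_mem : y + B.c ∈ B.J1 A') : Raw (JZero p) p lam where
  hp := hp
  hℓ := hlam
  hℓp := hlamp
  hdvd := hdvd
  smooth := B.r0.smooth
  div := B.r0.div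
  fin := B.r0.fin
  ch := B.rch.ch
  ne := B.rch.ne
  J1 := B.J1
  J1_decomp := B.rj1.J1_decomp
  J1_inert := B.rj1.J1_inert
  J1_tor := B.rj1.J1_tor
  J1_fin := B.rfin.J1_fin
  Aℓ := B.Al
  hAℓ := B.hAl
  Tℓ := B.Tl
  Tℓ_mem := B.ratl.Tℓ_mem
  Tℓ_add := B.ratl.Tℓ_add
  Tℓ_gal := B.ratl.Tℓ_gal
  Tℓ_J1 := B.ratl.Tℓ_J1
  t_J1 := B.ratl.t_J1
  es_ℓ := B.ratl.es_ℓ
  ne_ℓ := B.ratl.ne_ℓ
  ne_ℓ' := B.ratl.ne_ℓ'
  Ap := B.Ap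
  hAp := B.hAp
  W := B.W
  W_le := B.ratp.W_le
  W_decomp := B.ratp.W_decomp
  W_inert := B.ratp.W_inert
  W_fix := B.ratp.W_fix
  W_frob := B.ratp.W_frob
  y := y
  c := B.c
  y_fix := y_fix
  c_fix := B.rcusp.c_fix
  c_tor := B.rcusp.c_tor
  c_Tℓ := B.rcusp.c_Tℓ
  c_not_mem := B.rcusp.c_not_mem
  q₀ := q₀
  hq₀ := hq₀
  hq₀p := hq₀p
  hq₀ℓ := hq₀l
  A₀ := A₀
  hA₀ := hA₀
  y_mem := y_mem
  ℓ' := ℓ'
  hℓ' := hℓ'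
  hℓ'p := hℓ'p
  hℓ'ℓ := hℓ'l
  A' := A'
  hA' := hA'
  yc_mem := yc_mem

/-- **S15 from the abstract descent and the geometric input.** -/
theorem S15_of (habs : AbsDescent) (hgeo : Geom)
    {p : ℕ} (hp : p.Prime) (hp' : p ∉ ({2, 3, 5, 7, 13} : Finset ℕ))
    (W : WeierstrassCurve ℤ) (hΔ : W.Δ ≠ 0)
    (Q : ((W.map (Int.castRingHom ℚ))⁄(AlgebraicClosure ℚ)).Point)
    (hQfix : ∀ σ : AlgebraicClosure ℚ ≃ₐ[ℚ] AlgebraicClosure ℚ, σ • Q = Q)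
    (hQord : addOrderOf Q = p)
    (h2Δ : (2 : ℤ) ∣ W.Δ) (h2c₄ : ¬ (2 : ℤ) ∣ W.c₄)
    (h2 : ∀ A : ValuationSubring (AlgebraicClosure ℚ), A.LiesOverPrime 2 → ¬ W.InZeroComponentAt A Q)
    (h3Δ : (3 : ℤ) ∣ W.Δ) (h3c₄ : ¬ (3 : ℤ) ∣ W.c₄)
    (h3 : ∀ A : ValuationSubring (AlgebraicClosure ℚ), A.LiesOverPrime 3 → ¬ W.InZeroComponentAt A Q)
    {ℓ : ℕ} (hℓ : ℓ.Prime) (hℓp : ℓ ≠ p) (hℓΔ : (ℓ : ℤ) ∣ W.Δ) (hℓc₄ : ¬ (ℓ : ℤ) ∣ W.c₄)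
    (A : ValuationSubring (AlgebraicClosure ℚ)) (hA : A.LiesOverPrime ℓ) :
    ¬ W.InZeroComponentAt A Q := by
  intro hZ
  have hℓ2 : ℓ ≠ 2 := by rintro rfl; exact h2 A hA hZ
  have hℓ3 : ℓ ≠ 3 := by rintro rfl; exact h3 A hA hZ
  have hℓ5 : 5 ≤ ℓ := by
    have h2' := hℓ.two_le
    by_contra hlt
    have h4 : ℓ = 4 := by omega
    rw [h4] at hℓ
    exact absurd hℓ (by norm_num)
  have hp2 : p ≠ 2 := by rintro rfl; simp at hp'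
  have hp3 : p ≠ 3 := by rintro rfl; simp at hp'
  obtain ⟨lam, hlam, hlamp, hdvd, hle, B, hB⟩ := hgeo p hp hp'
  have hlne := Lne.lne hp W Q hQfix hQord hℓ hℓ2 hℓp hℓΔ hℓc₄ A hA hZ
  have hℓlam : ℓ ≠ lam := by omega
  -- the auxiliary prime `q₀ ∈ {2, 3}`, `q₀ ≠ lam`
  by_cases hl2 : lam = 2
  · obtain ⟨A₀, hA₀⟩ := Lib.Frobenius.exists_liesOverPrime (K := AlgebraicClosure ℚ) 3
      Nat.prime_three
    obtain ⟨y, hyfix, hy0, hyc⟩ := hB W hΔ Q hQfix hQord 3 (Or.inr rfl) (by omega)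
      (by exact_mod_cast h3Δ) (by exact_mod_cast h3c₄) A₀ hA₀ (h3 A₀ hA₀)
      ℓ hℓ hℓ5 hℓp hℓlam hℓΔ hℓc₄ A hA hZ
    exact habs _ p lam (B.toRaw hp hlam hlamp hdvd y hyfix Nat.prime_three (Ne.symm hp3)
      (by omega) A₀ hA₀ hy0 hℓ hℓp hℓlam A hA hyc)
  · obtain ⟨A₀, hA₀⟩ := Lib.Frobenius.exists_liesOverPrime (K := AlgebraicClosure ℚ) 2
      Nat.prime_two
    obtain ⟨y, hyfix, hy0, hyc⟩ := hB W hΔ Q hQfix hQord 2 (Or.inl rfl) (Ne.symm hl2)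
      (by exact_mod_cast h2Δ) (by exact_mod_cast h2c₄) A₀ hA₀ (h2 A₀ hA₀)
      ℓ hℓ hℓ5 hℓp hℓlam hℓΔ hℓc₄ A hA hZ
    exact habs _ p lam (B.toRaw hp hlam hlamp hdvd y hyfix Nat.prime_two (Ne.symm hp2)
      (Ne.symm hl2) A₀ hA₀ hy0 hℓ hℓp hℓlam A hA hyc)

end Fermat.Agent.S15
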