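import Fermat.Agent.S15.Abs.Defs
import Fermat.Agent.S17.Fin.Main
import Fermat.Agent.S17.WMW.OpenStab
import Fermat.Agent.S17.DIV.Export

/-!
# S15-DIVFIN : the raw data (R0) for `J = J₀(N)(ℚ̄)`

`smooth`, `div`, `fin` are, verbatim, the three fields of `Fermat.Agent.S15.Raw (JZero N) p ℓ`.
-/

set_option autoImplicit false

namespace Fermat.Agent.S15.DivFin

open ModularCurve AlgebraicCurve

/-- stabilisers are open -/
theorem smooth (N : ℕ) [NeZero N] (x : JZero N) :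
    ∃ L : IntermediateField ℚ Qb, FiniteDimensional ℚ L ∧
      ∀ σ : GQ, (∀ a ∈ L, σ a = a) → σ • x = x := by
  obtain ⟨L, hL, h⟩ := S17.WMW.exists_level_class N x
  exact ⟨L, hL, fun σ hσ => h σ ((IntermediateField.mem_fixingSubgroup_iff L σ).mpr hσ)⟩

/-- `J₀(N)(ℚ̄)` is divisible -/
theorem div (N : ℕ) [NeZero N] {ℓ : ℕ} (hℓ : 0 < ℓ) (x : JZero N) : ∃ z : JZero N, ℓ • z = x :=
  S17.DIV.exists_nsmul_eq N hℓ x

/-- `J₀(N)[ℓ]` is finite -/
theorem fin (N : ℕ) [NeZero N] {ℓ : ℕ} (hℓ : 0 < ℓ) : {x : JZero N | ℓ • x = 0}.Finite := by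
  haveI : NeZero ℓ := ⟨hℓ.ne'⟩
  have h := S17.finite_torsion_bar N ℓ
  have h2 : (Pic0.torsion (AlgebraicClosure ℚ) (modularFunctionFieldBar N) ℓ :
      Set (Pic0 (AlgebraicClosure ℚ) (modularFunctionFieldBar N))).Finite := Set.toFinite _
  refine h2.subset ?_
  intro x hx
  have hx' : ℓ • x = 0 := hx
  show x ∈ Pic0.torsion (AlgebraicClosure ℚ) (modularFunctionFieldBar N) ℓ
  rw [Pic0.mem_torsion, natCast_zsmul]
  exact hx'

end Fermat.Agent.S15.DivFin
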